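import Fermat.Agent.ZNewU.Group
import Fermat.Agent.Degen.HeckeEq
import Fermat.Agent.TorsCmp.Surj

/-!
# `U_q = -w_q` on the `q`-new part of the Tate module
-/

set_option autoImplicit false
set_option linter.unusedSectionVars false
set_option linter.style.haveILetI false

noncomputable section

open UpperHalfPlane Function ModularCurve Filter ModularForm AlgebraicCurve WithZero
  CongruenceSubgroup
open scoped Manifold MatrixGroups Topology ModularForm

namespace Fermat.Agent.ZNewUb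

open Fermat.Agent.X0Places Fermat.Agent.FunField Fermat.Agent.FunField.PlaceLemmas
open Fermat.Agent.TorsCmp Fermat.Agent.ZAL Fermat.Agent.HeckeRed
open Fermat.Agent.HeckeHom (HData dataU)
open Fermat.Agent.Tate (red pr tor)
open ModularCurve.Period
open Fermat.Agent.Degen (pushPic)

section Gen

variable {L : Type*} [Field L] [Algebra ℚ L] [IsAlgClosed L] {ι : L →+* ℂ}

section W

variable {d M : ℕ} [NeZero M]

theorem isChar_w (hd : ExDiv d M) {n : ℕ} {D : Divisor L (FF L M)} {χ : Gamma0 M →* ℂˣ}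
    (h : IsChar ι M n D χ) {χ' : Gamma0 M →* ℂˣ}
    (hχ' : MonoidHom.toAdditive χ' =
      (wData hd).hom (Additive ℂˣ) (MonoidHom.toAdditive χ)) :
    IsChar ι M n (wS ι hd • D) χ' := by
  refine h.hdata (wData hd) (fun _ => hd.gl_pos)
    (DistribSMul.toAddMonoidHom (Divisor L (FF L M)) (wS ι hd)) (wF ι hd) ?_ ?_ ?_ hχ'
  · intro x hx
    rwa [Ne, EmbeddingLike.map_eq_zero_iff]
  · intro x hx
    exact (divOf_smul (wS ι hd) x).symm
  · intro x
    rw [toMer_wF]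
    symm
    exact Fintype.prod_unique _

theorem isCharP_w (hd : ExDiv d M) {n : ℕ} {z : Pic0 L (FF L M)} {χ : Gamma0 M →* ℂˣ}
    (h : IsCharP ι M n z χ) {χ' : Gamma0 M →* ℂˣ}
    (hχ' : MonoidHom.toAdditive χ' =
      (wData hd).hom (Additive ℂˣ) (MonoidHom.toAdditive χ)) :
    IsCharP ι M n (wS ι hd • z) χ' := by
  obtain ⟨D, rfl, hχ⟩ := h
  exact ⟨_, rfl, isChar_w hd hχ hχ'⟩

/-- **the comparison intertwines the Atkin-Lehner operators** -/
theorem isCmp_w (hd : ExDiv d M) {n : ℕ} {z : Pic0 L (FF L M)}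
    {φ : Additive (Gamma0 M) →+ ZMod n} (h : IsCmp ι M n z φ) :
    IsCmp ι M n (wS ι hd • z) ((wData hd).hom (ZMod n) φ) := by
  obtain ⟨χ, hχ, hφ⟩ := h
  obtain ⟨χ', hχ'⟩ : ∃ χ' : Gamma0 M →* ℂˣ, MonoidHom.toAdditive χ' =
      (wData hd).hom (Additive ℂˣ) (MonoidHom.toAdditive χ) :=
    ⟨MonoidHom.toAdditive.symm _, Equiv.apply_symm_apply _ _⟩
  refine ⟨χ', isCharP_w hd hχ hχ', ?_⟩
  rw [hχ', ← hφ, HData.hom_comp]

end W

section Push

variable {m q : ℕ} [NeZero m] [NeZero q]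

theorem isCharP_push {n : ℕ} {z : Pic0 L (FF L (m * q))} {χ : Gamma0 (m * q) →* ℂˣ}
    (h : IsCharP ι (m * q) n z χ) {χ' : Gamma0 m →* ℂˣ}
    (hχ' : MonoidHom.toAdditive χ' =
      (alphaPush m q).hom (Additive ℂˣ) (MonoidHom.toAdditive χ)) :
    IsCharP ι m n (pushPic (heckeAlphaBar L m q) z) χ' := by
  obtain ⟨D, rfl, hχ⟩ := h
  exact ⟨_, rfl, hχ.alphaPush m q hχ'⟩

/-- **the comparison intertwines the push-forwards** -/
theorem isCmp_push {n : ℕ} {z : Pic0 L (FF L (m * q))}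
    {φ : Additive (Gamma0 (m * q)) →+ ZMod n} (h : IsCmp ι (m * q) n z φ) :
    IsCmp ι m n (pushPic (heckeAlphaBar L m q) z) ((alphaPush m q).hom (ZMod n) φ) := by
  obtain ⟨χ, hχ, hφ⟩ := h
  obtain ⟨χ', hχ'⟩ : ∃ χ' : Gamma0 m →* ℂˣ, MonoidHom.toAdditive χ' =
      (alphaPush m q).hom (Additive ℂˣ) (MonoidHom.toAdditive χ) :=
    ⟨MonoidHom.toAdditive.symm _, Equiv.apply_symm_apply _ _⟩
  refine ⟨χ', isCharP_push hχ hχ', ?_⟩
  rw [hχ', ← hφ, HData.hom_comp]

end Push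

end Gen

/-! ### the Tate module -/

section Main

variable (p : ℕ) [Fact p.Prime]

instance neZeroPow (n : ℕ) : NeZero (p ^ n) := ⟨pow_ne_zero n (Fact.out : p.Prime).ne_zero⟩

theorem eq_of_red {Γ : Type*} [Group Γ] {φ ψ : Additive Γ →+ ℤ_[p]}
    (h : ∀ n, red n φ = red n ψ) : φ = ψ := by
  refine AddMonoidHom.ext fun γ => PadicInt.ext_of_toZModPow.mp fun n => ?_
  exact DFunLike.congr_fun (h n) γ

theorem red_hom {Γ Γ' : Subgroup SL(2, ℤ)} (D : HData Γ Γ') (φ : Additive Γ →+ ℤ_[p]) (n : ℕ) :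
    red n (D.hom ℤ_[p] φ) = D.hom (ZMod (p ^ n)) (red n φ) :=
  (D.hom_comp _ _).symm

variable {p}

section W

variable {d M : ℕ} [NeZero M]

theorem isCmp_e (n : ℕ) (x : tor p (JZero M) n) :
    IsCmp iotaQbar M (p ^ n) (x : JZero M) ((comparisonJ M p).e n x) := isCmp_cmpMap (p ^ n) x

/-- Under the comparison, `w_d` on the Tate module is `(wData h).hom`. -/
theorem eq_w (h : ExDiv d M) {φ ψ : parabolicHoms ℤ_[p] (Gamma0 M) ℤ_[p]}
    (hψ : ∀ n, (pr (comparisonJ M p) _ (comparisonJ_mem_iff M p) n ψ : JZero M) =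
      wS iotaQbar h • (pr (comparisonJ M p) _ (comparisonJ_mem_iff M p) n φ : JZero M)) :
    (ψ : Additive (Gamma0 M) →+ ℤ_[p]) = (wData h).hom ℤ_[p] φ := by
  apply eq_of_red p
  intro n
  rw [red_hom, ← Fermat.Agent.Tate.e_pr (comparisonJ M p) _ (comparisonJ_mem_iff M p) n ψ,
    ← Fermat.Agent.Tate.e_pr (comparisonJ M p) _ (comparisonJ_mem_iff M p) n φ]
  refine (isCmp_e n _).unique ?_
  rw [hψ n]
  exact isCmp_w h (isCmp_e n _)

variable (p) in
/-- `w_d` on the parabolic homomorphisms -/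
def wLin (R : Type*) [CommRing R] (h : ExDiv d M) :
    parabolicHoms R (Gamma0 M) R →ₗ[R] parabolicHoms R (Gamma0 M) R :=
  ((wData h).homLin R R).restrict fun _ hφ => wData_parabolic h hφ

end W

section New

variable {m q : ℕ} [NeZero m] [NeZero q]

/-- **`U_q = -w_q` on the `q`-new part.** -/
theorem dataU_eq_neg_w (hq : q.Prime) (hqm : ¬ q ∣ m) (h : ExDiv q (m * q))
    {φ ψ : parabolicHoms ℤ_[p] (Gamma0 (m * q)) ℤ_[p]}
    (hψ : ∀ n, (pr (comparisonJ (m * q) p) _ (comparisonJ_mem_iff (m * q) p) n ψ :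
        JZero (m * q)) = wS iotaQbar h •
      (pr (comparisonJ (m * q) p) _ (comparisonJ_mem_iff (m * q) p) n φ : JZero (m * q)))
    (hnew : ∀ n, pushPic (heckeAlphaBar (AlgebraicClosure ℚ) m q)
      (wS iotaQbar h • (pr (comparisonJ (m * q) p) _ (comparisonJ_mem_iff (m * q) p) n φ :
        JZero (m * q))) = 0) :
    (dataU q (dvd_mul_left q m)).hom ℤ_[p] φ = -(ψ : Additive (Gamma0 (m * q)) →+ ℤ_[p]) := by
  have h1 := eq_w h hψ
  have h2 : (alphaPush m q).hom ℤ_[p] (ψ : Additive (Gamma0 (m * q)) →+ ℤ_[p]) = 0 := by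
    apply eq_of_red p
    intro n
    rw [red_hom, ← Fermat.Agent.Tate.e_pr (comparisonJ (m * q) p) _
      (comparisonJ_mem_iff (m * q) p) n ψ, Fermat.Agent.Tate.red_zero]
    have h3 := isCmp_push (isCmp_e (p := p) n (pr (comparisonJ (m * q) p) _
      (comparisonJ_mem_iff (m * q) p) n ψ))
    rw [hψ n, hnew n] at h3
    exact h3.unique isCmp_zero
  have h4 := pull_push hq hqm h (ψ : Additive (Gamma0 (m * q)) →+ ℤ_[p])
  rw [h2, map_zero] at h4
  have h5 : (wData h).hom ℤ_[p] (ψ : Additive (Gamma0 (m * q)) →+ ℤ_[p]) = φ := by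
    rw [h1, wData_wData]
  rw [h5] at h4
  exact eq_neg_of_add_eq_zero_right h4.symm

end New

end Main

end Fermat.Agent.ZNewUb
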