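import Fermat.Agent.ZAL.WHecke

/-!
# The Atkin-Lehner operator on homomorphisms, and `α^* α_* = 1 + U_q w_q`
-/

set_option autoImplicit false
set_option linter.unusedSectionVars false
set_option linter.style.haveILetI false

noncomputable section

open UpperHalfPlane Function CongruenceSubgroup
open scoped MatrixGroups

namespace Fermat.Agent.ZNewUb

open Fermat.Agent.TorsCmp Fermat.Agent.ZAL Fermat.Agent.X0Places
open Matrix.SpecialLinearGroup (mapGL)
open Fermat.Agent.HeckeHom (HData dataU uRep uRep_val)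
open Fermat.Agent.HeckeHom
open ModularCurve.Period

/-! ### the operator `w_d` -/

section W

variable {d M : ℕ} [NeZero M]

theorem conj_det (d m b e A B k D : ℤ) (hbez : d * e - m * b = 1)
    (hdet : A * D - B * (d * m * k) = 1) :
    ((d * A + b * (d * m * k)) * e - (d * B + b * D) * m) *
      (-(m * A + e * (d * m * k)) * b + d * m * B + d * e * D) -
      (-A * b - b ^ 2 * (m * k) + d * B + b * D) *
      (d * m * (A * e + d * e ^ 2 * k - B * m - e * D)) = 1 := by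
  linear_combination (d * e - m * b) ^ 2 * hdet + (d * e - m * b + 1) * hbez

/-- integral conjugation by `w_d` -/
theorem exists_conj (h : ExDiv d M) (γ : Gamma0 M) : ∃ δ : Gamma0 M,
    h.gl * mapGL ℝ (γ : SL(2, ℤ)) = mapGL ℝ (δ : SL(2, ℤ)) * h.gl := by
  obtain ⟨b, hb⟩ : ∃ b, b = h.exists_bez.choose := ⟨_, rfl⟩
  obtain ⟨e, he⟩ : ∃ e, e = h.exists_bez.choose_spec.choose := ⟨_, rfl⟩
  have hbez : (d : ℤ) * e - ((M / d : ℕ) : ℤ) * b = 1 := by
    rw [hb, he]
    exact h.exists_bez.choose_spec.choose_spec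
  have hM := h.mul_div'
  obtain ⟨m, hm⟩ : ∃ m : ℤ, m = ((M / d : ℕ) : ℤ) := ⟨_, rfl⟩
  rw [← hm] at hbez hM
  have e00 : h.mat 0 0 = (d : ℤ) := rfl
  have e01 : h.mat 0 1 = b := hb.symm
  have e10 : h.mat 1 0 = d * m := hM
  have e11 : h.mat 1 1 = d * e := by rw [he]; rfl
  obtain ⟨k, hk⟩ := mem_Gamma0_iff.1 γ.2
  rw [hM] at hk
  have hdet := Fermat.Agent.JInv.det_eq (γ : SL(2, ℤ))
  rw [hk] at hdet
  refine ⟨⟨mkSL _ _ _ _ (conj_det d m b e ((γ : SL(2, ℤ)) 0 0) ((γ : SL(2, ℤ)) 0 1) k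
    ((γ : SL(2, ℤ)) 1 1) hbez hdet), ?_⟩, ?_⟩
  · rw [mem_Gamma0_iff, mkSL_10, hM]
    exact dvd_mul_right _ _
  · rw [mapGL_eq, mapGL_eq, ExDiv.gl, glZ_mul, glZ_mul]
    apply glZ_congr
    ext i j
    fin_cases i <;> fin_cases j <;>
      simp only [Matrix.mul_apply, Fin.sum_univ_two, Fin.mk_zero, Fin.mk_one, Fin.isValue, e00, e01, e10, e11, hk, mkSL_00, mkSL_01, mkSL_10, mkSL_11]
    · linear_combination (-(d * ((γ : SL(2, ℤ)) 0 0) + b * (d * m * k))) * hbez
    · linear_combination (-(d * ((γ : SL(2, ℤ)) 0 1) + b * ((γ : SL(2, ℤ)) 1 1))) * hbez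
    · linear_combination (-(d * m * ((γ : SL(2, ℤ)) 0 0) + d * e * (d * m * k))) * hbez
    · linear_combination (-(d * m * ((γ : SL(2, ℤ)) 0 1) + d * e * ((γ : SL(2, ℤ)) 1 1))) * hbez

/-- The operator `w_d` on homomorphisms. -/
def wData (h : ExDiv d M) : HData (Gamma0 M) (Gamma0 M) where
  X := Unit
  α _ := h.gl
  ex γ _ := by
    obtain ⟨δ, hδ⟩ := exists_conj h γ
    exact ⟨(), δ, hδ⟩
  uniq _ _ _ _ := rfl

instance uniqueWData (h : ExDiv d M) : Unique (wData h).X := inferInstanceAs (Unique Unit)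

theorem wData_spec (h : ExDiv d M) (γ : Gamma0 M) :
    h.gl * mapGL ℝ (γ : SL(2, ℤ)) = mapGL ℝ ((wData h).coc γ default : SL(2, ℤ)) * h.gl :=
  (wData h).spec γ default

theorem wData_hom_apply (h : ExDiv d M) {A : Type*} [AddCommGroup A]
    (φ : Additive (Gamma0 M) →+ A) (γ : Gamma0 M) :
    (wData h).hom A φ (Additive.ofMul γ) = φ (Additive.ofMul ((wData h).coc γ default)) := by
  rw [HData.hom_apply]
  exact Fintype.sum_unique _

theorem wData_coc_eq (h : ExDiv d M) {γ δ : Gamma0 M}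
    (hδ : h.gl * mapGL ℝ (γ : SL(2, ℤ)) = mapGL ℝ (δ : SL(2, ℤ)) * h.gl) :
    δ = (wData h).coc γ default :=
  ((wData h).eq_of_spec (γ := γ) (x := default) (y := default) (δ := δ) hδ).2

theorem sq_det (d m b e : ℤ) (hbez : d * e - m * b = 1) :
    (d + b * m) * (m * b + d * e ^ 2) - (b * (1 + e)) * (d * m * (1 + e)) = 1 := by
  linear_combination (d * e - m * b + 1) * hbez

/-- `w_d² = d κ` -/
theorem exists_sq (h : ExDiv d M) : ∃ (κ : Gamma0 M) (s : GL (Fin 2) ℝ),
    (∀ g, s * g = g * s) ∧ h.gl * h.gl = s * mapGL ℝ (κ : SL(2, ℤ)) := by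
  obtain ⟨b, hb⟩ : ∃ b, b = h.exists_bez.choose := ⟨_, rfl⟩
  obtain ⟨e, he⟩ : ∃ e, e = h.exists_bez.choose_spec.choose := ⟨_, rfl⟩
  have hbez : (d : ℤ) * e - ((M / d : ℕ) : ℤ) * b = 1 := by
    rw [hb, he]
    exact h.exists_bez.choose_spec.choose_spec
  have hM := h.mul_div'
  obtain ⟨m, hm⟩ : ∃ m : ℤ, m = ((M / d : ℕ) : ℤ) := ⟨_, rfl⟩
  rw [← hm] at hbez hM
  have e00 : h.mat 0 0 = (d : ℤ) := rfl
  have e01 : h.mat 0 1 = b := hb.symm
  have e10 : h.mat 1 0 = d * m := hM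
  have e11 : h.mat 1 1 = d * e := by rw [he]; rfl
  have hd0 : 0 < (d : ℤ) := by
    have := h.ne_zero
    omega
  have hs : 0 < (!![(d : ℤ), 0; 0, d] : Matrix (Fin 2) (Fin 2) ℤ).det := by
    rw [Matrix.det_fin_two_of, zero_mul, sub_zero]
    exact mul_pos hd0 hd0
  refine ⟨⟨mkSL _ _ _ _ (sq_det d m b e hbez), ?_⟩, glZ _ hs, ?_, ?_⟩
  · rw [mem_Gamma0_iff, mkSL_10, hM]
    exact dvd_mul_right _ _
  · intro g
    apply Units.ext
    rw [Units.val_mul, Units.val_mul, glZ_val]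
    ext i j
    fin_cases i <;> fin_cases j <;>
      simp [Matrix.mul_apply, Fin.sum_univ_two, mul_comm]
  · rw [mapGL_eq, ExDiv.gl, glZ_mul, glZ_mul]
    apply glZ_congr
    ext i j
    fin_cases i <;> fin_cases j <;>
      simp [Matrix.mul_apply, Fin.sum_univ_two, e00, e01, e10, e11] <;> ring

theorem exists_conj_inv (h : ExDiv d M) (δ : Gamma0 M) : ∃ γ : Gamma0 M,
    h.gl * mapGL ℝ (γ : SL(2, ℤ)) = mapGL ℝ (δ : SL(2, ℤ)) * h.gl := by
  obtain ⟨κ, s, hs, hκ⟩ := exists_sq h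
  obtain ⟨δ₂, hδ₂⟩ := exists_conj h δ
  refine ⟨κ⁻¹ * δ₂ * κ, ?_⟩
  apply mul_left_cancel (a := h.gl)
  have h4 : mapGL ℝ (δ₂ : SL(2, ℤ)) * (h.gl * h.gl) = h.gl * (mapGL ℝ (δ : SL(2, ℤ)) * h.gl) := by
    rw [← mul_assoc, ← hδ₂, mul_assoc]
  rw [← h4, ← mul_assoc, hκ]
  simp only [Subgroup.coe_mul, Subgroup.coe_inv, map_mul, map_inv]
  have h5 := hs (mapGL ℝ (δ₂ : SL(2, ℤ)))
  calc s * mapGL ℝ (κ : SL(2, ℤ)) * ((mapGL ℝ (κ : SL(2, ℤ)))⁻¹ * mapGL ℝ (δ₂ : SL(2, ℤ)) *
        mapGL ℝ (κ : SL(2, ℤ)))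
      = (s * mapGL ℝ (δ₂ : SL(2, ℤ))) * mapGL ℝ (κ : SL(2, ℤ)) := by group
    _ = _ := by rw [h5, mul_assoc]

/-- `w_d` is an involution on homomorphisms -/
theorem wData_wData (h : ExDiv d M) {A : Type*} [AddCommGroup A]
    (φ : Additive (Gamma0 M) →+ A) : (wData h).hom A ((wData h).hom A φ) = φ := by
  obtain ⟨κ, s, hs, hκ⟩ := exists_sq h
  refine AddMonoidHom.ext fun γ' => ?_
  obtain ⟨γ, rfl⟩ := Additive.ofMul.surjective γ'
  rw [wData_hom_apply, wData_hom_apply]
  have h1 := wData_spec h γ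
  have h2 := wData_spec h ((wData h).coc γ default)
  have h3 : (wData h).coc ((wData h).coc γ default) default = κ * γ * κ⁻¹ := by
    apply Subtype.ext
    apply mapGL_inj
    apply mul_right_cancel (b := mapGL ℝ (κ : SL(2, ℤ)))
    apply mul_left_cancel (a := s)
    have h4 : mapGL ℝ ((wData h).coc ((wData h).coc γ default) default : SL(2, ℤ)) *
        (h.gl * h.gl) = (h.gl * h.gl) * mapGL ℝ (γ : SL(2, ℤ)) := by
      rw [← mul_assoc, ← h2, mul_assoc, ← h1, mul_assoc]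
    rw [hκ, ← mul_assoc, ← hs] at h4
    rw [← mul_assoc, h4]
    simp only [Subgroup.coe_mul, Subgroup.coe_inv, map_mul, map_inv]
    group
  rw [h3, ofMul_mul, ofMul_mul, ofMul_inv, map_add, map_add, map_neg]
  abel

theorem trace_of_conj {g : GL (Fin 2) ℝ} {γ δ : SL(2, ℤ)}
    (h : g * mapGL ℝ γ = mapGL ℝ δ * g) :
    (δ : Matrix (Fin 2) (Fin 2) ℤ).trace = (γ : Matrix (Fin 2) (Fin 2) ℤ).trace := by
  have h1 : mapGL ℝ δ = g * mapGL ℝ γ * g⁻¹ := by rw [h]; group
  have h2 := congrArg (fun M : GL (Fin 2) ℝ => (M : Matrix (Fin 2) (Fin 2) ℝ).trace) h1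
  simp only [Units.val_mul] at h2
  rw [Matrix.trace_mul_comm, ← mul_assoc, ← Units.val_mul, inv_mul_cancel, Units.val_one,
    one_mul] at h2
  simp only [Matrix.trace_fin_two] at h2 ⊢
  simp only [Matrix.SpecialLinearGroup.mapGL_coe_matrix, algebraMap_int_eq] at h2
  simp at h2
  exact_mod_cast h2

theorem wData_parabolic (h : ExDiv d M) {R A : Type*} [Semiring R] [AddCommGroup A] [Module R A]
    {φ : Additive (Gamma0 M) →+ A} (hφ : φ ∈ parabolicHoms R (Gamma0 M) A) :
    (wData h).hom A φ ∈ parabolicHoms R (Gamma0 M) A := by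
  intro γ hγ
  rw [wData_hom_apply]
  apply hφ
  rw [trace_of_conj (wData_spec h γ)]
  exact hγ

end W

/-! ### `α^* α_* = 1 + U_q w_q` -/

section U

variable {m q : ℕ} [NeZero m] [NeZero q]

/-- the restriction of the trace operator -/
def trData (m q : ℕ) [NeZero m] [NeZero q] : HData (Gamma0 (m * q)) (Gamma0 (m * q)) where
  X := (alphaPush m q).X
  α := (alphaPush m q).α
  ex γ c := by
    obtain ⟨y, δ, hδ⟩ := (alphaPush m q).ex ⟨γ, Gamma0_mul_le m q γ.2⟩ c
    exact ⟨y, δ, hδ⟩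
  uniq := (alphaPush m q).uniq

theorem alphaPull_hom_apply {A : Type*} [AddCommGroup A] (φ : Additive (Gamma0 m) →+ A)
    (γ : Gamma0 (m * q)) : (alphaPull m q).hom A φ (Additive.ofMul γ) =
      φ (Additive.ofMul (⟨γ, Gamma0_mul_le m q γ.2⟩ : Gamma0 m)) := by
  have h1 : (⟨γ, Gamma0_mul_le m q γ.2⟩ : Gamma0 m) = (alphaPull m q).coc γ default := by
    refine ((alphaPull m q).eq_of_spec (γ := γ) (x := default) (y := default)
      (δ := ⟨γ, Gamma0_mul_le m q γ.2⟩) ?_).2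
    show 1 * mapGL ℝ (γ : SL(2, ℤ)) = mapGL ℝ (γ : SL(2, ℤ)) * 1
    rw [one_mul, mul_one]
  rw [HData.hom_apply, h1]
  exact Fintype.sum_unique _

theorem trData_hom {A : Type*} [AddCommGroup A] (ψ : Additive (Gamma0 (m * q)) →+ A) :
    (trData m q).hom A ψ = (alphaPull m q).hom A ((alphaPush m q).hom A ψ) := by
  refine AddMonoidHom.ext fun γ' => ?_
  obtain ⟨γ, rfl⟩ := Additive.ofMul.surjective γ'
  rw [alphaPull_hom_apply, HData.hom_apply, HData.hom_apply]
  refine Finset.sum_congr rfl fun c _ => ?_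
  exact congrArg (fun δ => ψ (Additive.ofMul δ)) ((trData m q).eq_of_spec (γ := γ) (x := c)
    ((alphaPush m q).spec ⟨γ, Gamma0_mul_le m q γ.2⟩ c)).2.symm

/-- the representatives `(1, j + b; m, m j + q e)` -/
theorem exists_gam (hq : q.Prime) (h : ExDiv q (m * q)) : ∃ s : GL (Fin 2) ℝ,
    (∀ g, s * g = g * s) ∧ ∀ j : ZMod q, ∃ κ : Gamma0 m, (κ : SL(2, ℤ)) 1 0 = m ∧
      h.gl * uRep q j = s * mapGL ℝ (κ : SL(2, ℤ)) := by
  obtain ⟨b, hb⟩ : ∃ b, b = h.exists_bez.choose := ⟨_, rfl⟩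
  obtain ⟨e, he⟩ : ∃ e, e = h.exists_bez.choose_spec.choose := ⟨_, rfl⟩
  have hbez : (q : ℤ) * e - ((m * q / q : ℕ) : ℤ) * b = 1 := by
    rw [hb, he]
    exact h.exists_bez.choose_spec.choose_spec
  rw [Nat.mul_div_cancel _ hq.pos] at hbez
  have e00 : h.mat 0 0 = (q : ℤ) := rfl
  have e01 : h.mat 0 1 = b := hb.symm
  have e10 : h.mat 1 0 = m * q := by
    show ((m * q : ℕ) : ℤ) = m * q
    push_cast
    ring
  have e11 : h.mat 1 1 = q * e := by rw [he]; rfl
  have hd0 : 0 < (q : ℤ) := by exact_mod_cast hq.pos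
  have hs : 0 < (!![(q : ℤ), 0; 0, q] : Matrix (Fin 2) (Fin 2) ℤ).det := by
    rw [Matrix.det_fin_two_of, zero_mul, sub_zero]
    exact mul_pos hd0 hd0
  refine ⟨glZ _ hs, ?_, fun j => ?_⟩
  · intro g
    apply Units.ext
    rw [Units.val_mul, Units.val_mul, glZ_val]
    ext i j
    fin_cases i <;> fin_cases j <;>
      simp [Matrix.mul_apply, Fin.sum_univ_two, mul_comm]
  · refine ⟨⟨mkSL 1 (j.val + b) m (m * j.val + q * e) (by linear_combination hbez), ?_⟩,
      rfl, ?_⟩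
    · rw [mem_Gamma0_iff, mkSL_10]
    · rw [mapGL_eq, ExDiv.gl]
      apply Units.ext
      rw [Units.val_mul, Units.val_mul, uRep_val, glZ_val, glZ_val, glZ_val]
      ext i j
      fin_cases i <;> fin_cases j <;>
        simp [-ZMod.natCast_val, Matrix.mul_apply, Fin.sum_univ_two, e00, e01, e10, e11] <;> ring

/-- the disjoint union of `1` and `w_q U_q` -/
def oneWU (hq : q.Prime) (h : ExDiv q (m * q)) :
    HData (Gamma0 (m * q)) (Gamma0 (m * q)) where
  X := Option (ZMod q)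
  fin := haveI := ZMod.fintype q; inferInstance
  α := fun x => x.elim 1 fun j =>
    mapGL ℝ (((exists_gam hq h).choose_spec.2 j).choose : SL(2, ℤ))
  ex := by
    intro γ x
    cases x with
    | none => exact ⟨none, γ, by show 1 * _ = _ * 1; rw [one_mul, mul_one]⟩
    | some j =>
      obtain ⟨δ, hδ⟩ := exists_conj h ((dataU q (dvd_mul_left q m)).coc γ j)
      refine ⟨some ((dataU q (dvd_mul_left q m)).actFun γ j), δ, ?_⟩
      show mapGL ℝ (((exists_gam hq h).choose_spec.2 j).choose : SL(2, ℤ)) * _ = _ *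
        mapGL ℝ (((exists_gam hq h).choose_spec.2 _).choose : SL(2, ℤ))
      have h1 := ((exists_gam hq h).choose_spec.2 j).choose_spec.2
      have h2 := ((exists_gam hq h).choose_spec.2
        ((dataU q (dvd_mul_left q m)).actFun γ j)).choose_spec.2
      have hs := (exists_gam hq h).choose_spec.1
      have h3 : uRep q j * mapGL ℝ (γ : SL(2, ℤ)) =
        mapGL ℝ (((dataU q (dvd_mul_left q m)).coc γ j : Gamma0 (m * q)) : SL(2, ℤ)) *
          uRep q ((dataU q (dvd_mul_left q m)).actFun γ j) :=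
        (dataU q (dvd_mul_left q m)).spec γ j
      apply mul_left_cancel (a := (exists_gam hq h).choose)
      rw [← mul_assoc, ← h1, mul_assoc, h3, ← mul_assoc, hδ, ← mul_assoc, hs, mul_assoc, mul_assoc,
        ← h2]
  uniq := by
    intro δ x y hxy
    have key : ∀ j : ZMod q, mapGL ℝ (((exists_gam hq h).choose_spec.2 j).choose : SL(2, ℤ)) ≠
        mapGL ℝ (δ : SL(2, ℤ)) ∧
        1 ≠ mapGL ℝ (δ : SL(2, ℤ)) *
          mapGL ℝ (((exists_gam hq h).choose_spec.2 j).choose : SL(2, ℤ)) := by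
      intro j
      have h10 := ((exists_gam hq h).choose_spec.2 j).choose_spec.1
      set κ := ((exists_gam hq h).choose_spec.2 j).choose
      have hm0 : (0 : ℤ) < m := by
        have := Nat.pos_of_ne_zero (NeZero.ne m)
        exact_mod_cast this
      have hq2 : (2 : ℤ) ≤ q := by exact_mod_cast hq.two_le
      have hno : ¬ (κ : SL(2, ℤ)) ∈ Gamma0 (m * q) := by
        rw [mem_Gamma0_iff, h10]
        intro hdvd
        have := Int.le_of_dvd hm0 hdvd
        push_cast at this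
        nlinarith
      refine ⟨fun h0 => hno ?_, fun h0 => hno ?_⟩
      · rw [mapGL_inj h0]
        exact δ.2
      · rw [← map_mul] at h0
        have h1 : (1 : SL(2, ℤ)) = (δ : SL(2, ℤ)) * (κ : SL(2, ℤ)) := by
          apply mapGL_inj
          rw [map_one]
          exact h0
        have h2 : (κ : SL(2, ℤ)) = (δ : SL(2, ℤ))⁻¹ := (inv_eq_of_mul_eq_one_right h1.symm).symm
        rw [h2]
        exact inv_mem δ.2
    cases x with
    | none =>
      cases y with
      | none => rfl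
      | some j => exact absurd hxy (key j).2
    | some j =>
      cases y with
      | none =>
        refine absurd ?_ (key j).1
        exact hxy.trans (mul_one _)
      | some j' =>
        have h1 := ((exists_gam hq h).choose_spec.2 j).choose_spec.2
        have h2 := ((exists_gam hq h).choose_spec.2 j').choose_spec.2
        have hs := (exists_gam hq h).choose_spec.1
        have hxy' : mapGL ℝ (((exists_gam hq h).choose_spec.2 j).choose : SL(2, ℤ)) =
          mapGL ℝ (δ : SL(2, ℤ)) *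
            mapGL ℝ (((exists_gam hq h).choose_spec.2 j').choose : SL(2, ℤ)) := hxy
        obtain ⟨δ', hδ'⟩ := exists_conj_inv h δ
        congr 1
        apply uRep_uniq q δ'
        apply mul_left_cancel (a := h.gl)
        rw [h1, hxy', ← mul_assoc, hs, mul_assoc, ← h2, ← mul_assoc, ← hδ', mul_assoc]

theorem oneWU_hom (hq : q.Prime) (h : ExDiv q (m * q)) {A : Type*} [AddCommGroup A]
    (ψ : Additive (Gamma0 (m * q)) →+ A) :
    (oneWU hq h).hom A ψ = ψ + (dataU q (dvd_mul_left q m)).hom A ((wData h).hom A ψ) := by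
  have := ZMod.fintype q
  refine AddMonoidHom.ext fun γ' => ?_
  obtain ⟨γ, rfl⟩ := Additive.ofMul.surjective γ'
  rw [HData.hom_apply, AddMonoidHom.add_apply, HData.hom_apply]
  have h1 : ∀ (I : Fintype (Option (ZMod q))) (J : Fintype (ZMod q)) (f : Option (ZMod q) → A),
      @Finset.sum _ _ _ (@Finset.univ _ I) f =
        f none + @Finset.sum _ _ _ (@Finset.univ _ J) (fun j => f (some j)) := by
    intro I J f
    rw [Subsingleton.elim I (@instFintypeOption _ J)]
    exact Fintype.sum_option f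
  refine (h1 _ (dataU q (dvd_mul_left q m)).fin _).trans ?_
  congr 1
  · exact congrArg (fun δ => ψ (Additive.ofMul δ)) ((oneWU hq h).eq_of_spec (γ := γ)
      (x := (none : Option (ZMod q))) (y := (none : Option (ZMod q))) (δ := γ)
      (by show 1 * _ = _ * 1; rw [one_mul, mul_one])).2.symm
  · refine Finset.sum_congr rfl fun (j : ZMod q) _ => ?_
    rw [wData_hom_apply]
    have hδ := wData_spec h ((dataU q (dvd_mul_left q m)).coc γ j)
    refine congrArg (fun δ => ψ (Additive.ofMul δ)) ((oneWU hq h).eq_of_spec (γ := γ)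
      (x := (some j : Option (ZMod q)))
      (y := (some ((dataU q (dvd_mul_left q m)).actFun γ j) : Option (ZMod q)))
      (δ := (wData h).coc ((dataU q (dvd_mul_left q m)).coc γ j) default) ?_).2.symm
    show mapGL ℝ (((exists_gam hq h).choose_spec.2 j).choose : SL(2, ℤ)) * _ = _ *
      mapGL ℝ (((exists_gam hq h).choose_spec.2 _).choose : SL(2, ℤ))
    have h1 := ((exists_gam hq h).choose_spec.2 j).choose_spec.2
    have h2 := ((exists_gam hq h).choose_spec.2
      ((dataU q (dvd_mul_left q m)).actFun γ j)).choose_spec.2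
    have hs := (exists_gam hq h).choose_spec.1
    have h3 : uRep q j * mapGL ℝ (γ : SL(2, ℤ)) =
      mapGL ℝ (((dataU q (dvd_mul_left q m)).coc γ j : Gamma0 (m * q)) : SL(2, ℤ)) *
        uRep q ((dataU q (dvd_mul_left q m)).actFun γ j) :=
      (dataU q (dvd_mul_left q m)).spec γ j
    apply mul_left_cancel (a := (exists_gam hq h).choose)
    rw [← mul_assoc, ← h1, mul_assoc, h3, ← mul_assoc, hδ, ← mul_assoc, hs, mul_assoc, mul_assoc,
      ← h2]

/-- **`α^* α_* = 1 + U_q w_q`** -/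
theorem pull_push (hq : q.Prime) (hqm : ¬ q ∣ m) (h : ExDiv q (m * q)) {A : Type*} [AddCommGroup A]
    (ψ : Additive (Gamma0 (m * q)) →+ A) :
    (alphaPull m q).hom A ((alphaPush m q).hom A ψ) =
      ψ + (dataU q (dvd_mul_left q m)).hom A ((wData h).hom A ψ) := by
  rw [← trData_hom, ← oneWU_hom hq h]
  symm
  refine DFunLike.congr_fun (hdata_hom_eq (oneWU hq h) (trData m q) (fun x => ?_) ?_ A) ψ
  · have key : ∀ κ : Gamma0 m, ∃ (y : (trData m q).X) (t : Gamma0 (m * q)),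
        mapGL ℝ (κ : SL(2, ℤ)) = mapGL ℝ (t : SL(2, ℤ)) * (trData m q).α y := by
      intro κ
      let c : Cos m q := ((κ⁻¹ : Gamma0 m) : Cos m q)
      have h1 : ((κ * (rep (Gamma0 (m * q)) c)⁻¹ : Gamma0 m) : SL(2, ℤ)) ∈ Gamma0 (m * q) := by
        have h2 : (((rep (Gamma0 (m * q)) c)⁻¹ : Gamma0 m) : Cos m q) = c := mk_rep_inv _ c
        have h3 : κ * (rep (Gamma0 (m * q)) c)⁻¹ ∈ (Gamma0 (m * q)).subgroupOf (Gamma0 m) := by
          have h4 := QuotientGroup.eq.1 h2.symm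
          rwa [inv_inv] at h4
        exact h3
      refine ⟨c, ⟨_, h1⟩, ?_⟩
      show _ = mapGL ℝ ((κ * (rep (Gamma0 (m * q)) c)⁻¹ : Gamma0 m) : SL(2, ℤ)) *
        (1 * mapGL ℝ ((rep (Gamma0 (m * q)) c : Gamma0 m) : SL(2, ℤ)))
      rw [one_mul, ← map_mul, ← Subgroup.coe_mul, inv_mul_cancel_right]
    cases x with
    | none =>
      obtain ⟨y, t, ht⟩ := key 1
      refine ⟨y, t, ?_⟩
      rw [← ht]
      show (1 : GL (Fin 2) ℝ) = _
      rw [Subgroup.coe_one, map_one]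
    | some j => exact key _
  · have h1 : Fintype.card (trData m q).X = q + 1 := by
      have h2 := card_cos (M := m) (ℓ := q) hq hqm
      rw [← Nat.card_eq_fintype_card] at h2 ⊢
      exact h2
    have h3 : Fintype.card (oneWU hq h).X = q + 1 := by
      have := ZMod.fintype q
      have h2 : Fintype.card (Option (ZMod q)) = q + 1 := by
        rw [Fintype.card_option, ZMod.card]
      rw [← Nat.card_eq_fintype_card] at h2 ⊢
      exact h2
    rw [h1, h3]

end U

end Fermat.Agent.ZNewUb
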